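import Fermat.Agent.S55.DIC.Unram2
import Fermat.Agent.S13.InertiaVal

/-!
# S33-RAM, part 1: (RAM0), cyclotomic facts, (RAM1)

`A` is a valuation subring of `ℚ̄` over the prime `p`, `I = A.inertiaSubgroupIn ℚ`.

* `Ram_div_of_fixed` (RAM0): `x ∈ 𝔪_A` fixed by `I`  ⟹  `x / p ∈ A`.
  PROOF. `F := ℚ(x)` (`IntermediateField.adjoin ℚ {x}`, a number field), `I ≤ F.fixingSubgroup`;
  `S55.DIC.exists_place_below F A hp hA` gives `v` with `x ∈ A ↔ 0 ≤ ord v x`;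
  `S55.DIC.inertia_le_fixingSubgroup_iff` gives `ord v p = 1`; `x ∈ 𝔪_A` gives `1 ≤ ord v x`
  (if `ord v x ≤ 0` then `x⁻¹ ∈ A`), so `0 ≤ ord v (x / p)`.
* `Ram_sub_one_mem`, `Ram_p_div`, `Ram_div_p`: `ζ - 1 ∈ 𝔪_A` and `p = unit * (ζ - 1)^(p-1)`.
  PROOF. `∏_{i=1}^{p-1} (1 - ζ^i) = p` (evaluate `cyclotomic p` at `1`), `(1 - ζ^i)/(1 - ζ) = 1 + ζ + .. ∈ A`
  (roots of unity are integral, hence in `A`) and `(1 - ζ)/(1 - ζ^i) ∈ A` since `ζ = (ζ^i)^j`, `i j ≡ 1 mod p`.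
* `exists_inertia_ne` (RAM1): for `p ≠ 2` some `σ ∈ I` moves `ζ`.
  PROOF. otherwise (RAM0) `(ζ - 1)/p ∈ A`; multiply by `p/(ζ - 1)^(p-1) ∈ A`: `1/(ζ-1)^(p-2) ∈ A`, but
  `(ζ - 1)^(p-2) ∈ 𝔪_A` (`p - 2 ≥ 1`).
-/

set_option autoImplicit false

namespace Fermat.Agent.S33

open Fermat.Agent.S55.DIC NumberField IsDedekindDomain

variable (A : ValuationSubring (AlgebraicClosure ℚ)) {p : ℕ}

/-- (RAM0) -/
theorem Ram_div_of_fixed (hp : p.Prime) (hA : A.LiesOverPrime p) (x : AlgebraicClosure ℚ)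
    (hx : x ∈ A.nonunits) (hfix : ∀ σ ∈ A.inertiaSubgroupIn ℚ, σ x = x) :
    x / (p : AlgebraicClosure ℚ) ∈ A := by
  by_cases hx0 : x = 0
  · subst hx0
    simp [A.zero_mem]
  have hint : IsIntegral ℚ x := (AlgebraicClosure.isAlgebraic ℚ).isAlgebraic x |>.isIntegral
  let F : IntermediateField ℚ (AlgebraicClosure ℚ) := IntermediateField.adjoin ℚ {x}
  have hfd : FiniteDimensional ℚ F := IntermediateField.adjoin.finiteDimensional hint
  have : NumberField F := { to_charZero := inferInstance, to_finiteDimensional := hfd }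
  obtain ⟨v, -, hv⟩ := exists_place_below F A hp hA
  have hle : A.inertiaSubgroupIn ℚ ≤ F.fixingSubgroup := by
    intro σ hσ
    rw [IntermediateField.mem_fixingSubgroup_iff]
    intro y hy
    have h1 : F ≤ IntermediateField.fixedField (Subgroup.zpowers σ) := by
      rw [IntermediateField.adjoin_le_iff]
      intro z hz
      rw [Set.mem_singleton_iff] at hz
      subst hz
      intro τ
      obtain ⟨τ, k, rfl⟩ := τ
      have : ∀ k : ℤ, (σ ^ k) z = z := by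
        have h1 : σ z = z := hfix σ hσ
        have h2 : σ⁻¹ z = z := by
          conv_lhs => rw [← h1]
          exact AlgEquiv.symm_apply_apply σ z
        intro k
        induction k using Int.induction_on with
        | zero => simp
        | succ i ih => rw [zpow_add_one, AlgEquiv.mul_apply, h1, ih]
        | pred i ih => rw [zpow_sub_one, AlgEquiv.mul_apply, h2, ih]
      exact this k
    exact h1 hy ⟨σ, Subgroup.mem_zpowers σ⟩
  have hordp := (inertia_le_fixingSubgroup_iff F A hp hA v hv).mp hle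
  let xF : F := ⟨x, IntermediateField.mem_adjoin_simple_self ℚ x⟩
  have hxF0 : xF ≠ 0 := by
    intro h
    exact hx0 (congrArg Subtype.val h)
  have hpF0 : ((p : ℕ) : F) ≠ 0 := by exact_mod_cast hp.ne_zero
  have hordx : 1 ≤ ord v xF := by
    by_contra hlt
    have h1 : 0 ≤ ord v xF⁻¹ := by
      rw [ord_inv]; omega
    have h2 := (hv xF⁻¹ (inv_ne_zero hxF0)).mpr h1
    have h3 : x⁻¹ ∈ A := by simpa [xF] using h2
    rw [A.mem_nonunits_iff] at hx
    have h4 : A.valuation x⁻¹ ≤ 1 := (A.valuation_le_one_iff _).mpr h3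
    rw [map_inv₀] at h4
    have h5 : A.valuation x ≠ 0 := by
      rw [Ne, map_eq_zero]; exact hx0
    have h6 : 1 < (A.valuation x)⁻¹ := (one_lt_inv₀ (zero_lt_iff.mpr h5)).mpr hx
    exact absurd h4 (not_le.mpr h6)
  have h7 : 0 ≤ ord v (xF * ((p : ℕ) : F)⁻¹) := by
    rw [ord_mul v hxF0 (inv_ne_zero hpF0), ord_inv, hordp]
    omega
  have h8 := (hv _ (mul_ne_zero hxF0 (inv_ne_zero hpF0))).mpr h7
  have h9 : ((xF * ((p : ℕ) : F)⁻¹ : F) : AlgebraicClosure ℚ) = x / (p : AlgebraicClosure ℚ) := by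
    push_cast
    rw [div_eq_mul_inv]
  rwa [h9] at h8

theorem Ram_val_one_sub_pow_le {a : AlgebraicClosure ℚ} (ha : a ∈ A) (k : ℕ) :
    A.valuation (1 - a ^ k) ≤ A.valuation (1 - a) := by
  rw [← mul_neg_geom_sum a k, map_mul]
  exact mul_le_of_le_one_right' ((A.valuation_le_one_iff _).2
    (A.toSubring.sum_mem fun i _ => A.toSubring.pow_mem ha i))

theorem Ram_mem_of_pow_eq_one {a : AlgebraicClosure ℚ} {n : ℕ} (hn : n ≠ 0) (ha : a ^ n = 1) :
    a ∈ A := by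
  rw [← A.valuation_le_one_iff]
  by_contra h
  rw [not_le] at h
  have h1 : 1 < A.valuation a ^ n := one_lt_pow₀ h hn
  rw [← map_pow, ha, map_one] at h1
  exact lt_irrefl _ h1

theorem Ram_val_eq (hp : p.Prime) {ζ μ : AlgebraicClosure ℚ}
    (hζ : IsPrimitiveRoot ζ p) (hμ : IsPrimitiveRoot μ p) :
    A.valuation (1 - μ) = A.valuation (1 - ζ) := by
  haveI : NeZero p := ⟨hp.ne_zero⟩
  obtain ⟨i, -, rfl⟩ := hζ.eq_pow_of_pow_eq_one hμ.pow_eq_one
  obtain ⟨j, -, hj⟩ := hμ.eq_pow_of_pow_eq_one hζ.pow_eq_one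
  refine le_antisymm (Ram_val_one_sub_pow_le A (Ram_mem_of_pow_eq_one A hp.ne_zero hζ.pow_eq_one) i) ?_
  conv_lhs => rw [← hj]
  exact Ram_val_one_sub_pow_le A (Ram_mem_of_pow_eq_one A hp.ne_zero hμ.pow_eq_one) j

theorem Ram_val_p (hp : p.Prime) {ζ : AlgebraicClosure ℚ} (hζ : IsPrimitiveRoot ζ p) :
    A.valuation (p : AlgebraicClosure ℚ) = A.valuation (ζ - 1) ^ (p - 1) := by
  haveI : NeZero p := ⟨hp.ne_zero⟩
  haveI : Fact p.Prime := ⟨hp⟩
  have h1 : (Polynomial.cyclotomic p (AlgebraicClosure ℚ)).eval 1 = (p : AlgebraicClosure ℚ) :=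
    Polynomial.eval_one_cyclotomic_prime
  rw [Polynomial.cyclotomic_eq_prod_X_sub_primitiveRoots hζ, Polynomial.eval_prod] at h1
  rw [← h1, map_prod]
  have h2 : ∀ μ ∈ primitiveRoots p (AlgebraicClosure ℚ),
      A.valuation (Polynomial.eval 1 (Polynomial.X - Polynomial.C μ)) = A.valuation (ζ - 1) := by
    intro μ hμ
    rw [mem_primitiveRoots hp.pos] at hμ
    rw [Polynomial.eval_sub, Polynomial.eval_X, Polynomial.eval_C, Ram_val_eq A hp hζ hμ,
      Valuation.map_sub_swap]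
  rw [Finset.prod_congr rfl h2, Finset.prod_const, hζ.card_primitiveRoots, Nat.totient_prime hp]

theorem Ram_sub_one_mem (hp : p.Prime) (hA : A.LiesOverPrime p) {ζ : AlgebraicClosure ℚ}
    (hζ : IsPrimitiveRoot ζ p) : ζ - 1 ∈ A.nonunits := by
  rw [A.mem_nonunits_iff]
  by_contra h
  rw [not_lt] at h
  have h1 : (p : AlgebraicClosure ℚ) ∈ A.nonunits := hA
  rw [A.mem_nonunits_iff, Ram_val_p A hp hζ] at h1
  exact absurd (one_le_pow₀ h) (not_le.mpr h1)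

theorem Ram_sub_one_ne_zero (hp : p.Prime) {ζ : AlgebraicClosure ℚ}
    (hζ : IsPrimitiveRoot ζ p) : ζ - 1 ≠ 0 :=
  sub_ne_zero.mpr (hζ.ne_one hp.one_lt)

theorem Ram_p_div (hp : p.Prime) (hA : A.LiesOverPrime p) {ζ : AlgebraicClosure ℚ}
    (hζ : IsPrimitiveRoot ζ p) : (p : AlgebraicClosure ℚ) / (ζ - 1) ^ (p - 1) ∈ A := by
  rw [← A.valuation_le_one_iff, map_div₀, map_pow, Ram_val_p A hp hζ]
  refine le_of_eq (div_self ?_)
  rw [← map_pow, Ne, map_eq_zero]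
  exact pow_ne_zero _ (Ram_sub_one_ne_zero hp hζ)

theorem Ram_div_p (hp : p.Prime) (hA : A.LiesOverPrime p) {ζ : AlgebraicClosure ℚ}
    (hζ : IsPrimitiveRoot ζ p) : (ζ - 1) ^ (p - 1) / (p : AlgebraicClosure ℚ) ∈ A := by
  rw [← A.valuation_le_one_iff, map_div₀, map_pow, Ram_val_p A hp hζ]
  refine le_of_eq (div_self ?_)
  rw [← map_pow, Ne, map_eq_zero]
  exact pow_ne_zero _ (Ram_sub_one_ne_zero hp hζ)

/-- (RAM1) -/
theorem exists_inertia_ne (hp : p.Prime) (hp2 : p ≠ 2) (hA : A.LiesOverPrime p)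
    {ζ : AlgebraicClosure ℚ} (hζ : IsPrimitiveRoot ζ p) :
    ∃ σ ∈ A.inertiaSubgroupIn ℚ, σ ζ ≠ ζ := by
  by_contra hcon
  push_neg at hcon
  have h1 : (ζ - 1) / (p : AlgebraicClosure ℚ) ∈ A :=
    Ram_div_of_fixed A hp hA (ζ - 1) (Ram_sub_one_mem A hp hA hζ) (fun σ hσ => by
      rw [map_sub, map_one, hcon σ hσ])
  have h2 := A.mul_mem _ _ h1 (Ram_p_div A hp hA hζ)
  have h0 := Ram_sub_one_ne_zero hp hζ
  have hp0 : (p : AlgebraicClosure ℚ) ≠ 0 := by exact_mod_cast hp.ne_zero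
  have h3 : 3 ≤ p := by
    have := hp.two_le
    omega
  obtain ⟨m, rfl⟩ : ∃ m, p = m + 3 := ⟨p - 3, by omega⟩
  have h4 : (ζ - 1) / ((m + 3 : ℕ) : AlgebraicClosure ℚ) *
      (((m + 3 : ℕ) : AlgebraicClosure ℚ) / (ζ - 1) ^ (m + 3 - 1)) = ((ζ - 1) ^ (m + 1))⁻¹ := by
    have : m + 3 - 1 = (m + 1) + 1 := by omega
    rw [this, pow_succ (ζ - 1) (m + 1)]
    field_simp
  rw [h4, ← A.valuation_le_one_iff, map_inv₀, map_pow] at h2
  have h5 := Ram_sub_one_mem A hp hA hζ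
  rw [A.mem_nonunits_iff] at h5
  have h6 : A.valuation (ζ - 1) ^ (m + 1) < 1 := pow_lt_one₀ zero_le' h5 (by omega)
  have h7 : A.valuation (ζ - 1) ^ (m + 1) ≠ 0 := by
    rw [← map_pow, Ne, map_eq_zero]
    exact pow_ne_zero _ h0
  exact absurd h2 (not_le.mpr ((one_lt_inv₀ (zero_lt_iff.mpr h7)).mpr h6))

end Fermat.Agent.S33
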