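import Fermat.Agent.LP.Defs

/-!
# Project S33: the interface between the geometry (S33-SM, S33-ND, S33-RAM) and S33-WIRE

Only definitions.  `p` is an odd prime, `N = p * M0` with `p ∤ M0`, `A` is a valuation subring of
`Q̄` above `p`, `w` is the Atkin-Lehner involution `w_p` of `FF Q̄ (p * M0)` (`GS.IsWQ`), `ζ` is a
primitive `p`-th root of unity.  All statements are about Kummer classes modulo `p`-th powers
(`IsKummer`, `KummerEquiv` of `GR/Defs`, `GS.TrivAt`), see the blueprint (reports #1148, #1149).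

* `pop w ζ y = w(y) * ∏_j y(ζ^j q^{1/p})` : the operator `U_p + w_p` (the norm of `w y` to level `M0`).
* `PopKummer`, `PopTriv` : (P).      * `HeckeTriv` : (K2).      * `TrivRoot` : (K3).
* `GoodOrd` : (G).   * `SSCrux` : (S).   * `NodalOrd` : (N).   * `Ram1` : (RAM1).
* `GeoInput p M0 A` : everything S33-WIRE consumes at the place `A`.
-/

set_option autoImplicit false

noncomputable section

namespace Fermat.Agent.S33

open Fermat.Agent.GR Fermat.Agent.GS ModularCurve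

/-- The operator `U_p + w_p`, multiplicatively: `y ↦ w(y) * ∏_j y(ζ^j q^{1/p})`. -/
def pop {p M0 : ℕ} [NeZero p] (w : FF Qbar (p * M0) ≃ₐ[Qbar] FF Qbar (p * M0)) (ζ : Qbarˣ)
    (y : FF Qbar (p * M0)) : LaurentSeries Qbar :=
  ((w y : FF Qbar (p * M0)) : LaurentSeries Qbar) * normT p ζ (y : LaurentSeries Qbar)

/-- (P1) `pop y` is a Kummer function of level `M0`. -/
def PopKummer (p M0 : ℕ) [NeZero p] : Prop :=
  ∀ w : FF Qbar (p * M0) ≃ₐ[Qbar] FF Qbar (p * M0), IsWQ Qbar p M0 w →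
    ∀ ζ : Qbarˣ, IsPrimitiveRoot ζ p →
      ∀ y : FF Qbar (p * M0), IsKummer (N := p * M0) p (y : LaurentSeries Qbar) →
        IsKummer (N := M0) p (pop w ζ y)

/-- (P2) if `y` is trivial on both components of the fibre at `A` then `pop y` is trivial at the
Gauss valuation of level `M0`. -/
def PopTriv (p M0 : ℕ) [NeZero p] (A : ValuationSubring Qbar) : Prop :=
  ∀ w : FF Qbar (p * M0) ≃ₐ[Qbar] FF Qbar (p * M0), IsWQ Qbar p M0 w →
    ∀ ζ : Qbarˣ, IsPrimitiveRoot ζ p →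
      ∀ y : FF Qbar (p * M0), IsKummer (N := p * M0) p (y : LaurentSeries Qbar) →
        TrivAt (p * M0) p A y → TrivAt (p * M0) p A (w y : FF Qbar (p * M0)) →
          TrivAt M0 p A (pop w ζ y)

/-- (K2) the Hecke operators `T_ℓ`, `ℓ ∤ N`, preserve the classes which are trivial at the Gauss
valuation. -/
def HeckeTriv (N n : ℕ) (A : ValuationSubring Qbar) : Prop :=
  ∀ (ℓ : ℕ) [NeZero ℓ], ℓ.Prime → ¬ ℓ ∣ N → ∀ ζ : Qbarˣ, IsPrimitiveRoot ζ ℓ →
    ∀ y : LaurentSeries Qbar, TrivAt N n A y → TrivAt N n A (heckeMulT ℓ ζ y)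

/-- (K3) if `p ^ j` times a class modulo `p ^ k` is trivial at the Gauss valuation (`j < k`) then
the class modulo `p` is trivial at the Gauss valuation. -/
def TrivRoot (N p : ℕ) (A : ValuationSubring Qbar) : Prop :=
  ∀ k j : ℕ, j < k → ∀ u : LaurentSeries Qbar, u ∈ FF Qbar N → u ≠ 0 →
    TrivAt N (p ^ k) A (u ^ (p ^ j)) → TrivAt N p A u

/-- (G) on a finite Galois stable set of classes of level `M0`, trivial at the Gauss valuation, on
which `T_p` is onto, the inertia group acts through the cyclotomic character. -/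
def GoodOrd (p M0 : ℕ) [NeZero p] (A : ValuationSubring Qbar) : Prop :=
  ∀ ζ : Qbarˣ, IsPrimitiveRoot ζ p → ∀ Z : Set (LaurentSeries Qbar), Z.Finite →
    (∀ u ∈ Z, IsKummer (N := M0) p u ∧ TrivAt M0 p A u) →
    (∀ σ : Qbar ≃ₐ[ℚ] Qbar, ∀ u ∈ Z, ∃ u' ∈ Z, KummerEquiv M0 p u' (gal σ u)) →
    (∀ u ∈ Z, ∃ u' ∈ Z, KummerEquiv M0 p u (heckeMulT p ζ u')) →
    ∀ τ : Qbar ≃ₐ[ℚ] Qbar, τ ∈ A.inertiaSubgroupIn ℚ →
      ∀ c : ℕ, (∀ μ : Qbar, μ ^ p = 1 → τ μ = μ ^ c) →
        ∀ u ∈ Z, KummerEquiv M0 p (u ^ c) (gal τ u)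

/-- (S) a class of level `M0` which is killed by `T_p` and fixed by the wild-and-`μ_p`-trivial part
`I' = {τ ∈ I : τ ζ_p = ζ_p}` of the inertia group is trivial. -/
def SSCrux (p M0 : ℕ) [NeZero p] (A : ValuationSubring Qbar) : Prop :=
  ∀ ζ : Qbarˣ, IsPrimitiveRoot ζ p → ∀ u : LaurentSeries Qbar, IsKummer (N := M0) p u →
    KummerEquiv M0 p 1 (heckeMulT p ζ u) →
    (∀ τ : Qbar ≃ₐ[ℚ] Qbar, τ ∈ A.inertiaSubgroupIn ℚ → (∀ μ : Qbar, μ ^ p = 1 → τ μ = μ) →
      KummerEquiv M0 p u (gal τ u)) →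
    KummerEquiv M0 p 1 u

/-- (N) on a class of level `p * M0` which is trivial on both components of the fibre at `A` and
such that `pop` kills it and its image under `w`, the inertia group acts through the cyclotomic
character. -/
def NodalOrd (p M0 : ℕ) [NeZero p] (A : ValuationSubring Qbar) : Prop :=
  ∀ w : FF Qbar (p * M0) ≃ₐ[Qbar] FF Qbar (p * M0), IsWQ Qbar p M0 w →
    ∀ ζ : Qbarˣ, IsPrimitiveRoot ζ p →
      ∀ y : FF Qbar (p * M0), IsKummer (N := p * M0) p (y : LaurentSeries Qbar) →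
        TrivAt (p * M0) p A y → TrivAt (p * M0) p A (w y : FF Qbar (p * M0)) →
        KummerEquiv (p * M0) p 1 (pop w ζ y) → KummerEquiv (p * M0) p 1 (pop w ζ (w y)) →
        ∀ τ : Qbar ≃ₐ[ℚ] Qbar, τ ∈ A.inertiaSubgroupIn ℚ →
          ∀ c : ℕ, (∀ μ : Qbar, μ ^ p = 1 → τ μ = μ ^ c) →
            KummerEquiv (p * M0) p ((y : LaurentSeries Qbar) ^ c) (gal τ y)

/-- (RAM1) the inertia group acts non trivially on `μ_p`. -/
def Ram1 (p : ℕ) (A : ValuationSubring Qbar) : Prop :=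
  ∃ σ ∈ A.inertiaSubgroupIn ℚ, ∃ μ : Qbar, μ ^ p = 1 ∧ σ μ ≠ μ

/-- Everything S33-WIRE consumes from the geometry at the place `A` above `p`. -/
structure GeoInput (p M0 : ℕ) [NeZero p] (A : ValuationSubring Qbar) : Prop where
  popKummer : PopKummer p M0
  popTriv : PopTriv p M0 A
  heckeTriv : HeckeTriv (p * M0) p A
  trivRoot : TrivRoot (p * M0) p A
  goodOrd : GoodOrd p M0 A
  ssCrux : SSCrux p M0 A
  nodalOrd : NodalOrd p M0 A
  ram1 : Ram1 p A

end Fermat.Agent.S33
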