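import Fermat.Agent.S33.Ram0

/-!
# S33-RAM, part 2: (RAM2)

`I' = {τ ∈ I : τ ζ = ζ}`.  If `x ∈ 𝔪_A` is fixed by `I'` then `x / (ζ - 1) ∈ A`
(so `ζ - 1` is a uniformizer of `A ∩ L` for every field `L ∋ ζ` fixed pointwise by `I'`).

PROOF (no ramification theory).  `O := {τ ζ : τ ∈ I}` is a finite set of primitive `p`-th roots of `1`,
`h := #O ≤ p - 1`.  Choose `s : O → I` with `s(ζ') ζ = ζ'`.  `y := ∏_{ζ' ∈ O} s(ζ') x`.
(a) `y` is fixed by `I`: for `τ ∈ I`, `s(τ ζ')⁻¹ τ s(ζ') ∈ I` fixes `ζ`, hence `x`; so `τ (s(ζ') x) = s(τ ζ') x`, and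
`ζ' ↦ τ ζ'` permutes `O`.
(b) `A.valuation (s(ζ') x) = A.valuation x` (`S13.valuation_inertia_eq`), so `A.valuation y = (A.valuation x)^h`,
`y ∈ 𝔪_A` (`h ≥ 1`).
(c) (RAM0): `y / p ∈ A`, with `Ram_div_p`: `v(x)^h ≤ v(p) = v(ζ-1)^(p-1) ≤ v(ζ-1)^h` (as `v(ζ-1) < 1`, `h ≤ p-1`),
so `v(x) ≤ v(ζ - 1)` (`pow_le_pow_left` contrapositive in the linearly ordered value group with zero).
-/

set_option autoImplicit false

namespace Fermat.Agent.S33

variable (A : ValuationSubring (AlgebraicClosure ℚ)) {p : ℕ}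

open Classical in
/-- (RAM2) -/
theorem Ram_div_sub_one_mem (hp : p.Prime) (hA : A.LiesOverPrime p) {ζ : AlgebraicClosure ℚ}
    (hζ : IsPrimitiveRoot ζ p) (x : AlgebraicClosure ℚ) (hx : x ∈ A.nonunits)
    (hfix : ∀ σ ∈ A.inertiaSubgroupIn ℚ, σ ζ = ζ → σ x = x) :
    x / (ζ - 1) ∈ A := by
  set I := A.inertiaSubgroupIn ℚ with hI
  let O : Finset (AlgebraicClosure ℚ) :=
    (primitiveRoots p (AlgebraicClosure ℚ)).filter (fun μ => ∃ τ ∈ I, τ ζ = μ)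
  have hO : ∀ μ, μ ∈ O ↔ ∃ τ ∈ I, τ ζ = μ := by
    intro μ
    simp only [O, Finset.mem_filter, mem_primitiveRoots hp.pos, and_iff_right_iff_imp]
    rintro ⟨τ, -, rfl⟩
    exact hζ.map_of_injective τ.injective
  let s : AlgebraicClosure ℚ → (AlgebraicClosure ℚ ≃ₐ[ℚ] AlgebraicClosure ℚ) := fun μ =>
    if h : ∃ τ ∈ I, τ ζ = μ then h.choose else 1
  have hsI : ∀ μ ∈ O, s μ ∈ I := by
    intro μ hμ
    have h := (hO μ).1 hμ
    simp only [s, dif_pos h]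
    exact h.choose_spec.1
  have hsζ : ∀ μ ∈ O, s μ ζ = μ := by
    intro μ hμ
    have h := (hO μ).1 hμ
    simp only [s, dif_pos h]
    exact h.choose_spec.2
  have hτO : ∀ τ ∈ I, ∀ μ ∈ O, τ μ ∈ O := by
    intro τ hτ μ hμ
    obtain ⟨τ', hτ', rfl⟩ := (hO μ).1 hμ
    exact (hO _).2 ⟨τ * τ', I.mul_mem hτ hτ', rfl⟩
  set y : AlgebraicClosure ℚ := ∏ μ ∈ O, s μ x with hy
  have hζO : ζ ∈ O := (hO ζ).2 ⟨1, I.one_mem, rfl⟩
  have hcard1 : 1 ≤ O.card := Finset.card_pos.mpr ⟨ζ, hζO⟩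
  have hcard2 : O.card ≤ p - 1 := by
    have h1 : O.card ≤ (primitiveRoots p (AlgebraicClosure ℚ)).card :=
      Finset.card_le_card (Finset.filter_subset _ _)
    rwa [hζ.card_primitiveRoots, Nat.totient_prime hp] at h1
  -- (a)
  have hyfix : ∀ τ ∈ I, τ y = y := by
    intro τ hτ
    rw [hy, map_prod]
    refine Finset.prod_bij (fun μ _ => τ μ) (fun μ hμ => hτO τ hτ μ hμ)
      (fun a _ b _ hab => τ.injective hab) ?_ ?_
    · intro ν hν
      refine ⟨τ⁻¹ ν, hτO τ⁻¹ (I.inv_mem hτ) ν hν, ?_⟩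
      exact AlgEquiv.apply_symm_apply τ ν
    · intro μ hμ
      have hτμ := hτO τ hτ μ hμ
      have hg : ((s (τ μ))⁻¹ * τ * s μ) ∈ I :=
        I.mul_mem (I.mul_mem (I.inv_mem (hsI _ hτμ)) hτ) (hsI μ hμ)
      have hgζ : ((s (τ μ))⁻¹ * τ * s μ) ζ = ζ := by
        rw [AlgEquiv.mul_apply, AlgEquiv.mul_apply, hsζ μ hμ]
        have h5 : (s (τ μ))⁻¹ ((s (τ μ)) ζ) = ζ := AlgEquiv.symm_apply_apply (s (τ μ)) ζ
        rwa [hsζ _ hτμ] at h5
      have hgx := hfix _ hg hgζ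
      rw [AlgEquiv.mul_apply, AlgEquiv.mul_apply] at hgx
      have := congrArg (s (τ μ)) hgx
      rw [show (s (τ μ)) ((s (τ μ))⁻¹ (τ (s μ x))) = τ (s μ x) from
        AlgEquiv.apply_symm_apply (s (τ μ)) _] at this
      exact this
  -- (b)
  have hyval : A.valuation y = A.valuation x ^ O.card := by
    rw [hy, map_prod, Finset.prod_congr rfl (fun μ hμ =>
      Fermat.Agent.S13.valuation_inertia_eq A (hsI μ hμ) x), Finset.prod_const]
  have hxlt : A.valuation x < 1 := (A.mem_nonunits_iff).1 hx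
  have hynon : y ∈ A.nonunits := by
    rw [A.mem_nonunits_iff, hyval]
    exact pow_lt_one₀ zero_le' hxlt (by omega)
  -- (c)
  have h1 := Ram_div_of_fixed A hp hA y hynon hyfix
  have hp0 : (p : AlgebraicClosure ℚ) ≠ 0 := by exact_mod_cast hp.ne_zero
  have hvp0 : A.valuation (p : AlgebraicClosure ℚ) ≠ 0 := by
    rw [Ne, map_eq_zero]; exact hp0
  rw [← A.valuation_le_one_iff, map_div₀, div_le_one₀ (zero_lt_iff.mpr hvp0), hyval,
    Ram_val_p A hp hζ] at h1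
  have hz0 := Ram_sub_one_ne_zero hp hζ
  have hvz0 : A.valuation (ζ - 1) ≠ 0 := by
    rw [Ne, map_eq_zero]; exact hz0
  have hzlt : A.valuation (ζ - 1) < 1 := (A.mem_nonunits_iff).1 (Ram_sub_one_mem A hp hA hζ)
  have h2 : A.valuation (ζ - 1) ^ (p - 1) ≤ A.valuation (ζ - 1) ^ O.card :=
    pow_le_pow_of_le_one zero_le' hzlt.le hcard2
  have h3 : A.valuation x ^ O.card ≤ A.valuation (ζ - 1) ^ O.card := h1.trans h2
  have h4 : A.valuation x ≤ A.valuation (ζ - 1) := by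
    by_contra hlt
    rw [not_le] at hlt
    exact absurd h3 (not_le.mpr (pow_lt_pow_left₀ hlt zero_le' (by omega)))
  rw [← A.valuation_le_one_iff, map_div₀, div_le_one₀ (zero_lt_iff.mpr hvz0)]
  exact h4

end Fermat.Agent.S33
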