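import Fermat.Agent.S33.Wire.Main
import Fermat.Agent.S33.ND.Main
import Fermat.Agent.LP.Nod.BrMain
import Fermat.Agent.GS.Inst.Out

/-!
# S33 from the two exports (G), (S) of S33-SM
-/

set_option autoImplicit false

namespace Fermat.Agent.S33

open Fermat.Agent.GR IsLocalRing

/-- S33, given (G) and (S) at all places above `p`. -/
theorem S33_of_SM
    (hG : ∀ (p M0 : ℕ) [NeZero p], p.Prime → p ≠ 2 → M0 ≠ 0 → ¬ p ∣ M0 →
      ∀ A : ValuationSubring Qbar, A.LiesOverPrime p → GoodOrd p M0 A)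
    (hS : ∀ (p M0 : ℕ) [NeZero p], p.Prime → p ≠ 2 → M0 ≠ 0 → ¬ p ∣ M0 →
      ∀ A : ValuationSubring Qbar, A.LiesOverPrime p → SSCrux p M0 A)
    {𝒪 : Type} [CommRing 𝒪] [IsDomain 𝒪] [IsDiscreteValuationRing 𝒪]
    [IsAdicComplete (maximalIdeal 𝒪) 𝒪] [Finite (ResidueField 𝒪)]
    {p : ℕ} (hp : p.Prime) (hp2 : p ≠ 2) (hp𝒪 : (p : 𝒪) ∈ maximalIdeal 𝒪)
    {N : ℕ} [NeZero N] {S : Finset ℕ} (hN : p ∣ N ∧ ¬ p ^ 2 ∣ N)
    (hNS : ∀ q : ℕ, q.Prime → q ∣ N → q ∈ S)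
    {θ : CuspForm.heckeAlgebra N 2 (↑S : Set ℕ) →+* ResidueField 𝒪}
    {T : Type} [CommRing T] [IsLocalRing T] [IsNoetherianRing T]
    [IsAdicComplete (maximalIdeal T) T] [Algebra 𝒪 T] [IsLocalHom (algebraMap 𝒪 T)]
    [Module.Finite 𝒪 T] [Module.Free 𝒪 T]
    (H : CuspForm.HeckeGaloisRepDatum N (↑S : Set ℕ) 𝒪 θ T)
    (hres : (GaloisRepAdic.ofResidualGaloisRep H.ρ.residual).IsOrdinaryAt p) :
    H.ρ.IsOrdinaryAt p :=
  S33_of_geoInput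
    (fun p M0 _ hp hp2 hM0 hpM A hA =>
      ND.geoInput hp hp2 hM0 hpM hA
        (LP.nodalInertiaP GS.Inst.instOut p M0 hM0 hp hp2 hpM A hA)
        (hG p M0 hp hp2 hM0 hpM A hA) (hS p M0 hp hp2 hM0 hpM A hA))
    hp hp2 hp𝒪 hN hNS H hres

end Fermat.Agent.S33
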